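/-
GATE-Z (S15) / (LOC-r), node PUSHFIBRE, part 1 (helper94): **function orders on a finite `G`-set.**

Generic frame of `GH/N0/Order.IsStableOrder` (`R` a PID, `F = Frac R ⊆ K`, `G` a group acting on
the field `K` with fixed field `F`), but for a finite `G`-SET `X` without group structure: an
`R`-subalgebra `HX ⊆ Map(X, K)` which is equivariant, finite over `R` and separates the points.
Torsor orders (`GZ/LocR/TorsVocab.IsStableTorsorOrder`) are of this kind.

Contents: the action is by bijections, `HX` is free, an `R`-basis of `HX` is `K`-linearly
independent as a family of functions (Galois descent), values are integral, fixed integral elements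
lie in `R`.  Twins of the lemmas of `GH/N0/Order.IsStableOrder`.
-/
import Mathlib
import Fermat.Agent.GH.N0.Order
import Fermat.Agent.GZ.LocR.TorsVocab

set_option autoImplicit false
set_option linter.unusedSectionVars false

namespace Fermat.Agent.GZ.LocR.PushFibre

open Fermat.Agent.GH.N0

section Def

variable {R : Type*} [CommRing R]
variable (F : Type*) [Field F] [Algebra R F]
variable {K : Type*} [Field K] [Algebra F K] [Algebra R K]
variable {G : Type*} [Group G] [MulSemiringAction G K]
variable {X : Type*}

/-- a function order on a `G`-set `X`. -/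
structure IsFunOrder (actX : G → X → X) (HX : Subalgebra R (X → K)) : Prop where
  fixed : ∀ c : K, (∀ σ : G, σ • c = c) → c ∈ (algebraMap F K).range
  equivariant : ∀ f ∈ HX, ∀ σ x, f (actX σ x) = σ • f x
  fg : Module.Finite R HX
  sep : ∀ x y : X, x ≠ y → ∃ f ∈ HX, f x ≠ f y

end Def

section Lemmas

variable {R : Type*} [CommRing R] [IsDomain R] [IsPrincipalIdealRing R]
variable {F : Type*} [Field F] [Algebra R F] [IsFractionRing R F]
variable {K : Type*} [Field K] [Algebra F K] [Algebra R K] [IsScalarTower R F K]
variable {G : Type*} [Group G] [MulSemiringAction G K]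
variable {X : Type*} [Finite X]
variable {actX : G → X → X} {HX : Subalgebra R (X → K)}

namespace IsFunOrder

variable (h : IsFunOrder F actX HX)
include h

theorem act_injective (σ : G) : Function.Injective (actX σ) := by
  intro x y hxy
  by_contra hne
  obtain ⟨f, hf, hfxy⟩ := h.sep x y hne
  apply hfxy
  have h1 : σ • f x = σ • f y := by
    rw [← h.equivariant f hf, ← h.equivariant f hf, hxy]
  exact MulAction.injective σ h1

theorem act_surjective (σ : G) : Function.Surjective (actX σ) :=
  Finite.surjective_of_injective (h.act_injective σ)

theorem isTorsionFree : Module.IsTorsionFree R HX := by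
  apply Module.IsTorsionFree.of_smul_eq_zero
  intro r f hrf
  by_cases hr : r = 0
  · exact Or.inl hr
  · right
    apply Subtype.ext
    funext x
    have h1 : (r • f : HX).1 x = 0 := by rw [hrf]; rfl
    have h2 : (r • f : HX).1 x = algebraMap R K r * f.1 x := by
      change (r • f.1) x = _
      rw [Pi.smul_apply, Algebra.smul_def]
    rw [h2] at h1
    rcases mul_eq_zero.mp h1 with h3 | h3
    · exact absurd ((injective_iff_map_eq_zero _).mp (algebraMap_injective_of_tower R F K) r h3) hr
    · exact h3

theorem free : Module.Free R HX := by
  have := h.fg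
  have := h.isTorsionFree
  exact Module.free_of_finite_type_torsion_free'

/-- **Descent**: an `R`-basis of `HX` stays linearly independent over `K` (as functions). -/
theorem linearIndependent_coe {ι : Type*} (b : Module.Basis ι R HX) :
    LinearIndependent K (fun i => ((b i : HX) : X → K)) := by
  classical
  have hR : LinearIndependent R (fun i => ((b i : HX) : X → K)) := by
    have := b.linearIndependent.map' HX.val.toLinearMap (by
      rw [LinearMap.ker_eq_bot]
      exact Subtype.val_injective)
    exact this
  have hF : LinearIndependent F (fun i => ((b i : HX) : X → K)) :=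
    (LinearIndependent.iff_fractionRing R F).mp hR
  rw [linearIndependent_iff']
  intro s c hc i hi
  refine eq_zero_of_sum_mul_eq_zero actX h.act_surjective (fun i => ((b i : HX) : X → K))
    (fun i σ x => h.equivariant _ (b i).2 σ x) ?_ s c ?_ i hi
  · intro s c hfix hrel
    have hex : ∀ i ∈ s, ∃ q : F, algebraMap F K q = c i := fun i hi => h.fixed (c i) (hfix i hi)
    choose! q hq using hex
    have h0 : ∑ i ∈ s, q i • (fun i => ((b i : HX) : X → K)) i = 0 := by
      funext x
      rw [Finset.sum_apply, Pi.zero_apply, ← hrel x]
      refine Finset.sum_congr rfl fun i hi => ?_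
      rw [Pi.smul_apply, Algebra.smul_def, hq i hi]
    intro i hi
    rw [← hq i hi, linearIndependent_iff'.mp hF s q h0 i hi, map_zero]
  · intro x
    have := congrFun hc x
    rw [Finset.sum_apply] at this
    simpa [Pi.smul_apply, smul_eq_mul] using this

/-- the values of the functions of `HX` are integral over `R`. -/
theorem isIntegral_apply {f : X → K} (hf : f ∈ HX) (x : X) : IsIntegral R (f x) := by
  have := h.fg
  exact (IsIntegral.of_finite R (⟨f, hf⟩ : HX)).map (evPt HX.val x)

/-- an element of `K` fixed by `G` and integral over `R` lies in `R`. -/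
theorem exists_algebraMap_eq_of_fixed {c : K} (hfix : ∀ σ : G, σ • c = c)
    (hint : IsIntegral R c) : ∃ r : R, algebraMap R K r = c := by
  obtain ⟨q, hq⟩ := h.fixed _ hfix
  rw [← hq] at hint
  have hq' : IsIntegral R q := (isIntegral_algebraMap_iff (algebraMap F K).injective).mp hint
  obtain ⟨r, hr⟩ := IsIntegrallyClosed.isIntegral_iff.mp hq'
  exact ⟨r, by rw [IsScalarTower.algebraMap_apply R F K, hr, hq]⟩

end IsFunOrder

end Lemmas

section OfPair

variable {R : Type*} [CommRing R] [IsDomain R] [IsPrincipalIdealRing R]
variable {F : Type*} [Field F] [Algebra R F] [IsFractionRing R F]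
variable {K : Type*} [Field K] [Algebra F K] [Algebra R K] [IsScalarTower R F K]
variable {G : Type*} [Group G] [MulSemiringAction G K]
variable {M : Type*} [AddCommGroup M] [Finite M] {X : Type*} [AddTorsor M X]
variable {actM : G → M → M} {actX : G → X → X}
variable {HM : Subalgebra R (M → K)} {HX : Subalgebra R (X → K)}

/-- a torsor order is a function order. -/
theorem IsTorsorOrderPair.isFunOrder (P : IsTorsorOrderPair F actM actX HM HX) :
    IsFunOrder F actX HX where
  fixed := P.group.fixed
  equivariant := P.torsor.equivariant
  fg := P.torsor.fg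
  sep := P.torsor.sep

/-- a stable order on the group is a function order. -/
theorem isFunOrder_of_isStableOrder (h : IsStableOrder F actM HM) : IsFunOrder F actM HM where
  fixed := h.fixed
  equivariant := h.equivariant
  fg := h.fg
  sep := h.sep

/-- a torsor under a finite group is finite. -/
theorem finite_of_addTorsor (M : Type*) [AddCommGroup M] [Finite M] (X : Type*) [AddTorsor M X] :
    Finite X := by
  obtain ⟨x₀⟩ := (inferInstance : Nonempty X)
  exact Finite.of_surjective (fun m : M => m +ᵥ x₀) fun x => ⟨x -ᵥ x₀, vsub_vadd x x₀⟩

end OfPair

end Fermat.Agent.GZ.LocR.PushFibre
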