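/-
GATE-Z (S15) / (LOC-r), node PUSHFIBRE, part 2 (helper94): **(b) FIBRE — torsor orders restrict
along equivariant injections.**

Frame of `GZ/LocR/TorsVocab` (`R` a PID, `F = Frac R ⊆ K`, `G` acting on `K`).  Given a pair
`(HM, HX)` of a stable function order on the finite group `M` and a torsor order on the `M`-torsor
`X`, an injective additive map `j : M' → M` and a map `ι : X' → X` of an `M'`-torsor `X'` with
`ι (n +ᵥ x') = j n +ᵥ ι x'`, both equivariant: the IMAGE orders `HM ∘ j`, `HX ∘ ι` are again a pair.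
(Application: `X' =` the fibre of `X → X / M'` over a `G`-fixed point.)  Group side =
`GS/ClosureW.isStableOrder_map`.
-/
import Mathlib
import Fermat.Agent.GS.ClosureW.Quot
import Fermat.Agent.GZ.LocR.TorsVocab
import Fermat.Agent.GZ.LocR.PushFibre.FunOrder

set_option autoImplicit false
set_option linter.unusedSectionVars false
set_option linter.unusedVariables false

namespace Fermat.Agent.GZ.LocR.PushFibre

open Fermat.Agent.GH.N0 Fermat.Agent.GS.ClosureW

section Torsor

variable {M : Type*} [AddCommGroup M] {X : Type*} [AddTorsor M X]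
variable {M' : Type*} [AddCommGroup M'] {X' : Type*} [AddTorsor M' X']

/-- a map of torsors over an additive map commutes with differences. -/
theorem map_vsub_of_vadd (j : M' →+ M) (ι : X' → X)
    (hvadd : ∀ (n : M') (x' : X'), ι (n +ᵥ x') = j n +ᵥ ι x') (x y : X') :
    ι x -ᵥ ι y = j (x -ᵥ y) := by
  have h1 : ι x = j (x -ᵥ y) +ᵥ ι y := by rw [← hvadd, vsub_vadd]
  rw [h1, vadd_vsub]

/-- a map of torsors over an injective additive map is injective. -/
theorem injective_of_vadd (j : M' →+ M) (hj : Function.Injective j) (ι : X' → X)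
    (hvadd : ∀ (n : M') (x' : X'), ι (n +ᵥ x') = j n +ᵥ ι x') : Function.Injective ι := by
  intro x y hxy
  have h1 : j (x -ᵥ y) = 0 := by
    rw [← map_vsub_of_vadd j ι hvadd, hxy, vsub_self]
  have h2 : x -ᵥ y = 0 := hj (by rw [h1, map_zero])
  exact vsub_eq_zero_iff_eq.mp h2

/-- a map of torsors over a surjective additive map is surjective. -/
theorem surjective_of_vadd (π : M' →+ M) (hπ : Function.Surjective π) (p : X' → X)
    (hvadd : ∀ (n : M') (x' : X'), p (n +ᵥ x') = π n +ᵥ p x') : Function.Surjective p := by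
  intro z
  obtain ⟨x₀⟩ := (inferInstance : Nonempty X')
  obtain ⟨m, hm⟩ := hπ (z -ᵥ p x₀)
  exact ⟨m +ᵥ x₀, by rw [hvadd, hm, vsub_vadd]⟩

/-- the fibres of a map of torsors over `π` are the orbits of `ker π`. -/
theorem eq_iff_vsub_mem_ker (π : M' →+ M) (p : X' → X)
    (hvadd : ∀ (n : M') (x' : X'), p (n +ᵥ x') = π n +ᵥ p x') (x y : X') :
    p x = p y ↔ x -ᵥ y ∈ π.ker := by
  rw [AddMonoidHom.mem_ker, ← map_vsub_of_vadd π p hvadd, vsub_eq_zero_iff_eq]

end Torsor

section Fibre

variable {R : Type*} [CommRing R] [IsDomain R] [IsPrincipalIdealRing R]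
variable {F : Type*} [Field F] [Algebra R F] [IsFractionRing R F]
variable {K : Type*} [Field K] [Algebra F K] [Algebra R K] [IsScalarTower R F K]
variable {G : Type*} [Group G] [MulSemiringAction G K]
variable {M : Type*} [AddCommGroup M] [Finite M] {X : Type*} [AddTorsor M X]
variable {M' : Type*} [AddCommGroup M'] [Finite M'] {X' : Type*} [AddTorsor M' X']
variable {actM : G → M → M} {actX : G → X → X} {actM' : G → M' → M'} {actX' : G → X' → X'}
variable {HM : Subalgebra R (M → K)} {HX : Subalgebra R (X → K)}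

/-- **(b) FIBRE.** the image orders of a torsor-order pair along an equivariant injection of
(group, torsor) are a torsor-order pair. -/
theorem IsTorsorOrderPair.restrict (P : IsTorsorOrderPair F actM actX HM HX)
    (j : M' →+ M) (hj : Function.Injective j) (ι : X' → X) (hι : Function.Injective ι)
    (hvadd : ∀ (n : M') (x' : X'), ι (n +ᵥ x') = j n +ᵥ ι x')
    (hjeq : ∀ (σ : G) (n : M'), j (actM' σ n) = actM σ (j n))
    (hιeq : ∀ (σ : G) (x' : X'), ι (actX' σ x') = actX σ (ι x')) :
    IsTorsorOrderPair F actM' actX' (HM.map (precomp R K j)) (HX.map (precomp R K ι)) where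
  group := isStableOrder_map P.group j hj hjeq
  torsor :=
    { equivariant := by
        rintro _ ⟨f, hf, rfl⟩ σ x
        show f (ι (actX' σ x)) = σ • f (ι x)
        rw [hιeq, P.torsor.equivariant f hf]
      fg := by
        have := P.torsor.fg
        exact finite_map HX _
      sep := by
        intro x y hne
        obtain ⟨f, hf, hfn⟩ := P.torsor.sep (ι x) (ι y) (fun h => hne (hι h))
        exact ⟨precomp R K ι f, ⟨f, hf, rfl⟩, hfn⟩
      coact := by
        rintro _ ⟨f, hf, rfl⟩
        obtain ⟨n, a, b, hab⟩ := P.torsor.coact f hf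
        refine ⟨n, fun i => ⟨precomp R K j (a i), ⟨a i, (a i).2, rfl⟩⟩,
          fun i => ⟨precomp R K ι (b i), ⟨b i, (b i).2, rfl⟩⟩, ?_⟩
        intro m x
        show f (ι (m +ᵥ x)) = ∑ i, (a i : M → K) (j m) * (b i : X → K) (ι x)
        rw [hvadd]
        exact hab (j m) (ι x)
      diff := by
        rintro _ ⟨f, hf, rfl⟩
        obtain ⟨n, a, b, hab⟩ := P.torsor.diff f hf
        refine ⟨n, fun i => ⟨precomp R K ι (a i), ⟨a i, (a i).2, rfl⟩⟩,
          fun i => ⟨precomp R K ι (b i), ⟨b i, (b i).2, rfl⟩⟩, ?_⟩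
        intro x x'
        show f (j (x -ᵥ x')) = ∑ i, (a i : X → K) (ι x) * (b i : X → K) (ι x')
        rw [← map_vsub_of_vadd j ι hvadd]
        exact hab (ι x) (ι x') }
  act_vadd := by
    intro σ m x
    apply hι
    rw [hιeq, hvadd, hvadd, hjeq, hιeq, P.act_vadd]

/-- `restrict` without the (redundant) injectivity of `ι`. -/
theorem IsTorsorOrderPair.restrict' (P : IsTorsorOrderPair F actM actX HM HX)
    (j : M' →+ M) (hj : Function.Injective j) (ι : X' → X)
    (hvadd : ∀ (n : M') (x' : X'), ι (n +ᵥ x') = j n +ᵥ ι x')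
    (hjeq : ∀ (σ : G) (n : M'), j (actM' σ n) = actM σ (j n))
    (hιeq : ∀ (σ : G) (x' : X'), ι (actX' σ x') = actX σ (ι x')) :
    IsTorsorOrderPair F actM' actX' (HM.map (precomp R K j)) (HX.map (precomp R K ι)) :=
  IsTorsorOrderPair.restrict P j hj ι (injective_of_vadd j hj ι hvadd) hvadd hjeq hιeq

/-- **(b) FIBRE, ∃-form**: flatness of the class passes to the fibre. -/
theorem hasTorsorOrder_restrict (P : IsTorsorOrderPair F actM actX HM HX)
    (j : M' →+ M) (hj : Function.Injective j) (ι : X' → X)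
    (hvadd : ∀ (n : M') (x' : X'), ι (n +ᵥ x') = j n +ᵥ ι x')
    (hjeq : ∀ (σ : G) (n : M'), j (actM' σ n) = actM σ (j n))
    (hιeq : ∀ (σ : G) (x' : X'), ι (actX' σ x') = actX σ (ι x')) :
    HasTorsorOrder actX' (HM.map (precomp R K j)) :=
  (IsTorsorOrderPair.restrict' P j hj ι hvadd hjeq hιeq).torsor.hasTorsorOrder

end Fibre

end Fermat.Agent.GZ.LocR.PushFibre
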