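/-
GATE-Z (S15) / (LOC-r), node PUSHFIBRE, part 3 (helper94): **trace and saturation on a torsor
order** — the torsor twin of helper5's `GS/ClosureW/Quot` (`trK`, `trK_mem`, `exists_trK_ne`,
`rep2_inv`).

`Kr ≤ M` a `G`-stable subgroup acting on the `M`-torsor `X` by `k +ᵥ x`.
* `trX Kr f x = ∑_{k ∈ Kr} f (k +ᵥ x)` maps `HX` into `HX` (from the COACTION: the coefficients
  `∑_k a_i k` are `G`-fixed and integral, so in `R`);
* fibre sums over two different `Kr`-orbits are separated by `HX` (Dedekind);
* SATURATION: a sum of pure tensors in `HX ⊗ H'` which is `Kr`-invariant in the `X`-variable is a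
  sum of pure tensors in `(HX ⊓ invariants) ⊗ H'` (Smith-adapted basis of `HX` + Galois descent
  `IsFunOrder.linearIndependent_coe`; needs `CharZero K` to divide by `#Kr`).
-/
import Mathlib
import Fermat.Agent.GS.ClosureW.Quot
import Fermat.Agent.GZ.LocR.TorsVocab
import Fermat.Agent.GZ.LocR.PushFibre.FunOrder

set_option autoImplicit false
set_option linter.unusedSectionVars false
set_option linter.unusedVariables false

noncomputable section

namespace Fermat.Agent.GZ.LocR.PushFibre

open Fermat.Agent.GH.N0 Fermat.Agent.GS.ClosureW Module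

section Trace

variable {K : Type*} [Field K] {M : Type*} [AddCommGroup M] {X : Type*} [AddTorsor M X]

/-- the trace over a finite subgroup acting on the torsor, `f ↦ (x ↦ ∑_{k ∈ Kr} f (k +ᵥ x))`. -/
def trX (K : Type*) [Field K] (Kr : AddSubgroup M) [Fintype Kr] : (X → K) →ₗ[K] (X → K) where
  toFun f := fun x => ∑ k : Kr, f ((k : M) +ᵥ x)
  map_add' f g := by
    funext x
    simp [Finset.sum_add_distrib]
  map_smul' c f := by
    funext x
    simp [Finset.mul_sum]

theorem trX_apply (Kr : AddSubgroup M) [Fintype Kr] (f : X → K) (x : X) :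
    trX K Kr f x = ∑ k : Kr, f ((k : M) +ᵥ x) := rfl

theorem trX_vadd_mem (Kr : AddSubgroup M) [Fintype Kr] (f : X → K) (x : X) {k : M}
    (hk : k ∈ Kr) : trX K Kr f (k +ᵥ x) = trX K Kr f x := by
  rw [trX_apply, trX_apply]
  refine Fintype.sum_equiv (Equiv.addRight (⟨k, hk⟩ : Kr)) _ _ fun k' => ?_
  simp [vadd_vadd]

theorem trX_of_inv (Kr : AddSubgroup M) [Fintype Kr] {f : X → K}
    (hf : ∀ x : X, ∀ k ∈ Kr, f (k +ᵥ x) = f x) (x : X) :
    trX K Kr f x = (Fintype.card Kr : K) * f x := by
  rw [trX_apply, Finset.sum_congr rfl fun (k : Kr) _ => hf x (k : M) k.2]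
  simp

end Trace

section Desc

variable {K : Type*} {X Y : Type*}

/-- a function constant on the fibres of a surjection descends. -/
theorem exists_descX {p : X → Y} (hp : Function.Surjective p) (Φ : X → K)
    (hF : ∀ x y, p x = p y → Φ x = Φ y) : ∃ g : Y → K, ∀ x, g (p x) = Φ x :=
  ⟨fun z => Φ (Function.surjInv hp z), fun x => hF _ _ (Function.surjInv_eq hp (p x))⟩

end Desc

section Inv

variable {R K : Type*} [CommRing R] [Field K] [Algebra R K] {M : Type*} [AddCommGroup M]
variable {X : Type*} [AddTorsor M X]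

/-- the `Kr`-invariant functions on the torsor, as a subalgebra. -/
def invX (R K : Type*) [CommRing R] [Field K] [Algebra R K] (X : Type*) [AddTorsor M X]
    (Kr : AddSubgroup M) : Subalgebra R (X → K) where
  carrier := {f | ∀ x : X, ∀ k ∈ Kr, f (k +ᵥ x) = f x}
  mul_mem' := by
    intro f g hf hg x k hk
    rw [Pi.mul_apply, Pi.mul_apply, hf x k hk, hg x k hk]
  add_mem' := by
    intro f g hf hg x k hk
    rw [Pi.add_apply, Pi.add_apply, hf x k hk, hg x k hk]
  algebraMap_mem' := by
    intro r x k hk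
    rfl

theorem mem_invX {Kr : AddSubgroup M} {f : X → K} :
    f ∈ invX R K X Kr ↔ ∀ x : X, ∀ k ∈ Kr, f (k +ᵥ x) = f x := Iff.rfl

end Inv

section Order

variable {R : Type*} [CommRing R] [IsDomain R] [IsPrincipalIdealRing R]
variable {F : Type*} [Field F] [Algebra R F] [IsFractionRing R F]
variable {K : Type*} [Field K] [Algebra F K] [Algebra R K] [IsScalarTower R F K]
variable {G : Type*} [Group G] [MulSemiringAction G K]
variable {M : Type*} [AddCommGroup M] [Finite M] {X : Type*} [AddTorsor M X]
variable {actM : G → M → M} {actX : G → X → X}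
variable {HM : Subalgebra R (M → K)} {HX : Subalgebra R (X → K)}

/-- **the trace maps `HX` into `HX`.** -/
theorem trX_mem (P : IsTorsorOrderPair F actM actX HM HX) (Kr : AddSubgroup M) [Fintype Kr]
    (hK : ∀ (σ : G), ∀ k ∈ Kr, actM σ k ∈ Kr) {f : X → K} (hf : f ∈ HX) :
    trX K Kr f ∈ HX := by
  obtain ⟨n, a, b, hab⟩ := P.torsor.coact f hf
  have hc : ∀ i, ∃ r : R, algebraMap R K r = ∑ k : Kr, (a i : M → K) k := by
    intro i
    apply exists_algebraMap_eq_of_fixed P.group
    · intro σ
      rw [Finset.smul_sum]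
      have hbij : Function.Bijective (fun k : Kr => (⟨actM σ k, hK σ k k.2⟩ : Kr)) := by
        apply Finite.injective_iff_bijective.mp
        intro k k' hkk
        exact Subtype.ext (P.group.act_injective σ (congrArg Subtype.val hkk))
      rw [← Function.Bijective.sum_comp hbij (fun k : Kr => (a i : M → K) k)]
      refine Finset.sum_congr rfl fun k _ => ?_
      exact (P.group.equivariant _ (a i).2 σ k).symm
    · exact IsIntegral.sum _ fun k _ => isIntegral_apply P.group (a i).2 k
  choose r hr using hc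
  have : trX K Kr f = ∑ i, r i • (b i : X → K) := by
    funext x
    rw [trX_apply, Finset.sum_apply]
    simp only [hab, Pi.smul_apply, Algebra.smul_def, hr]
    rw [Finset.sum_comm]
    refine Finset.sum_congr rfl fun i _ => ?_
    rw [Finset.sum_mul]
  rw [this]
  exact Subalgebra.sum_mem _ fun i _ => Subalgebra.smul_mem _ (b i).2 _

omit [IsDomain R] [IsPrincipalIdealRing R] [Finite M] in
/-- **Dedekind separation**: fibre sums over two different `Kr`-orbits are separated by `HX`. -/
theorem exists_trX_ne (hsep : ∀ x y : X, x ≠ y → ∃ f ∈ HX, f x ≠ f y)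
    (Kr : AddSubgroup M) [Fintype Kr] {x y : X} (hxy : x -ᵥ y ∉ Kr) :
    ∃ f ∈ HX, trX K Kr f x ≠ trX K Kr f y := by
  classical
  by_contra hcon
  push Not at hcon
  let χ : X → (HX →* K) := fun u =>
    { toFun := fun h => (h : X → K) u
      map_one' := rfl
      map_mul' := fun _ _ => rfl }
  have hχ : Function.Injective χ := by
    intro u v huv
    by_contra hne
    obtain ⟨f, hf, hfuv⟩ := hsep u v hne
    exact hfuv (DFunLike.congr_fun huv ⟨f, hf⟩)
  have hli := (linearIndependent_monoidHom HX K).comp χ hχ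
  let g : Kr ⊕ Kr → X := Sum.elim (fun k => (k : M) +ᵥ x) (fun k => (k : M) +ᵥ y)
  have hcross : ∀ k k' : Kr, (k : M) +ᵥ x ≠ (k' : M) +ᵥ y := by
    intro k k' h'
    apply hxy
    have hx : x = (-(k : M) + k') +ᵥ y := by
      rw [← vadd_vadd, ← h', vadd_vadd, neg_add_cancel, zero_vadd]
    have : x -ᵥ y = -(k : M) + k' := by
      rw [hx, vadd_vsub]
    rw [this]
    exact Kr.add_mem (Kr.neg_mem k.2) k'.2
  have hg : Function.Injective g := by
    rintro (k | k) (k' | k') h
    · have h' : (k : M) +ᵥ x = (k' : M) +ᵥ x := h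
      rw [Subtype.ext (vadd_right_cancel x h')]
    · exact absurd h (hcross k k')
    · exact absurd h.symm (hcross k' k)
    · have h' : (k : M) +ᵥ y = (k' : M) +ᵥ y := h
      rw [Subtype.ext (vadd_right_cancel y h')]
  have hli2 := hli.comp g hg
  have hsum : ∑ j : Kr ⊕ Kr, (Sum.elim (fun _ => (1 : K)) (fun _ => (-1 : K)) j) •
      (((χ (g j) : HX →* K) : HX → K)) = 0 := by
    funext h
    rw [Fintype.sum_sum_type]
    simp only [Sum.elim_inl, Sum.elim_inr, one_smul, neg_smul, Finset.sum_neg_distrib,
      Pi.add_apply, Pi.neg_apply, Finset.sum_apply, Pi.zero_apply]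
    have := hcon h h.2
    rw [trX_apply, trX_apply] at this
    show ∑ k : Kr, (h : X → K) ((k : M) +ᵥ x) + -∑ k : Kr, (h : X → K) ((k : M) +ᵥ y) = 0
    rw [this, add_neg_cancel]
  have h0 := Fintype.linearIndependent_iff.1 hli2 _ hsum (Sum.inl 0)
  simp at h0

/-- **KEY (saturation), torsor version.**  A sum of pure tensors in `HX ⊗ H'` which is
`Kr`-invariant in the torsor variable is a sum of pure tensors in `(HX ⊓ invariants) ⊗ H'`. -/
theorem rep2_invX [CharZero K] (P : IsTorsorOrderPair F actM actX HM HX)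
    (Kr : AddSubgroup M) (hK : ∀ (σ : G), ∀ k ∈ Kr, actM σ k ∈ Kr)
    {Y : Type*} (H' : Subalgebra R (Y → K)) {Φ : X × Y → K}
    (hF : Rep2 HX H' Φ) (hinv : ∀ (x : X) (y : Y), ∀ k ∈ Kr, Φ (k +ᵥ x, y) = Φ (x, y)) :
    Rep2 (HX ⊓ invX R K X Kr) H' Φ := by
  classical
  have : Fintype Kr := Fintype.ofFinite Kr
  have hXfin : Finite X := finite_of_addTorsor M X
  have h := IsTorsorOrderPair.isFunOrder P
  have := h.fg
  have := h.free
  have hRK : Function.Injective (algebraMap R K) := algebraMap_injective_of_tower R F K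
  -- the invariant part as a submodule of `HX`
  let 𝓘 : Submodule R HX :=
    Submodule.comap (Subalgebra.val HX).toLinearMap (Subalgebra.toSubmodule (invX R K X Kr))
  have h𝓘 : ∀ u : HX, u ∈ 𝓘 ↔ (u : X → K) ∈ invX R K X Kr := fun u => Iff.rfl
  obtain ⟨n, snf⟩ := Submodule.smithNormalForm (Module.Free.chooseBasis R HX) 𝓘
  set e : Module.Free.ChooseBasisIndex R HX → (X → K) := fun i => ((snf.bM i : HX) : X → K)
    with he
  -- `K`-linear independence of the basis as functions
  have hind : LinearIndependent K e := h.linearIndependent_coe snf.bM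
  -- the basis vectors in the range of `f` are invariant
  have hs2 : ∀ s : Fin n, e (snf.f s) ∈ invX R K X Kr := by
    intro s
    have h1 : (snf.bN s : HX) ∈ 𝓘 := (snf.bN s).2
    rw [snf.snf s, h𝓘] at h1
    have ha : snf.a s ≠ 0 := by
      intro h0
      have h2 : (snf.bN s : HX) = 0 := by rw [snf.snf s, h0, zero_smul]
      have h3 : snf.bN s = 0 := Subtype.ext h2
      exact snf.bN.ne_zero s h3
    have ha1 : algebraMap R K (snf.a s) ≠ 0 := fun h0 =>
      ha (hRK (by rw [h0, map_zero]))
    intro x k hk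
    have h4 := h1 x k hk
    simp only [Algebra.smul_def] at h4
    exact mul_left_cancel₀ ha1 h4
  -- coordinates of invariant elements vanish off the range of `f`
  have hs3 : ∀ u : HX, (u : X → K) ∈ invX R K X Kr → ∀ i, i ∉ Set.range snf.f →
      snf.bM.repr u i = 0 := by
    intro u hh i hi
    exact snf.repr_eq_zero_of_notMem_range ⟨u, (h𝓘 u).2 hh⟩ hi
  -- (INV): an invariant `K`-combination of the basis only involves the range of `f`
  have hINV : ∀ c : Module.Free.ChooseBasisIndex R HX → K,
      (∑ i, c i • e i) ∈ invX R K X Kr → ∀ i, i ∉ Set.range snf.f → c i = 0 := by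
    intro c hc i hi
    set φ : X → K := ∑ i, c i • e i with hφ
    -- `card • φ = trX φ = ∑ c_j • trX e_j`
    have h1 : (Fintype.card Kr : K) • φ = ∑ j, c j • trX K Kr (e j) := by
      have : trX K Kr φ = (Fintype.card Kr : K) • φ := by
        funext x
        rw [trX_of_inv Kr hc x]
        rfl
      rw [← this, hφ, map_sum]
      refine Finset.sum_congr rfl fun j _ => ?_
      rw [map_smul]
    -- expand `trX e_j` in the basis
    obtain ⟨ρ, hρ, hρ0⟩ : ∃ ρ : Module.Free.ChooseBasisIndex R HX →
        Module.Free.ChooseBasisIndex R HX → K,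
        (∀ j, trX K Kr (e j) = ∑ i, ρ j i • e i) ∧ ∀ j i, i ∉ Set.range snf.f → ρ j i = 0 := by
      refine ⟨fun j i => algebraMap R K
        (snf.bM.repr ⟨trX K Kr (e j), trX_mem P Kr hK (snf.bM j).2⟩ i), ?_, ?_⟩
      · intro j
        set t : HX := ⟨trX K Kr (e j), trX_mem P Kr hK (snf.bM j).2⟩ with ht
        have h3 : (t : X → K) = ((∑ i, snf.bM.repr t i • snf.bM i : HX) : X → K) := by
          rw [snf.bM.sum_repr t]
        rw [show trX K Kr (e j) = (t : X → K) from rfl, h3]
        rw [← Subalgebra.coe_val, map_sum]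
        refine Finset.sum_congr rfl fun i _ => ?_
        funext x
        rw [Subalgebra.coe_val, Subalgebra.coe_smul, Pi.smul_apply, Pi.smul_apply,
          Algebra.smul_def, smul_eq_mul]
      · intro j i hi
        show algebraMap R K _ = 0
        rw [hs3 _ (fun x k hk => trX_vadd_mem Kr (e j) x hk) i hi, map_zero]
    -- compare coefficients at `i`
    have h4 : ∑ i', ((Fintype.card Kr : K) * c i') • e i' =
        ∑ i', (∑ j, c j * ρ j i') • e i' := by
      have h5 : (Fintype.card Kr : K) • φ = ∑ i', ((Fintype.card Kr : K) * c i') • e i' := by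
        rw [hφ, Finset.smul_sum]
        refine Finset.sum_congr rfl fun i' _ => ?_
        rw [smul_smul]
      rw [← h5, h1]
      simp_rw [hρ, Finset.smul_sum, smul_smul]
      rw [Finset.sum_comm]
      refine Finset.sum_congr rfl fun i' _ => ?_
      rw [Finset.sum_smul]
    have h6 := Fintype.linearIndependent_iff.1 hind
      (fun i' => (Fintype.card Kr : K) * c i' - ∑ j, c j * ρ j i') (by
        simp only [sub_smul, Finset.sum_sub_distrib]
        rw [h4, sub_self]) i
    have h7 : ∑ j, c j * ρ j i = 0 := by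
      refine Finset.sum_eq_zero fun j _ => ?_
      rw [hρ0 j i hi, mul_zero]
    rw [h7, sub_zero] at h6
    have hcard : (Fintype.card Kr : K) ≠ 0 := by
      have : Fintype.card Kr ≠ 0 := Fintype.card_ne_zero
      exact_mod_cast this
    exact (mul_eq_zero.1 h6).resolve_left hcard
  -- main: rewrite `Φ` through the basis in the first variable
  obtain ⟨ι, _, a, b, hab⟩ := hF
  -- `B i := ∑_t (repr (a t) i) • b t`
  set B : Module.Free.ChooseBasisIndex R HX → H' := fun i =>
    ∑ t, snf.bM.repr (a t) i • b t with hB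
  have hFB : ∀ x y, Φ (x, y) = ∑ i, e i x * ((B i : H') : Y → K) y := by
    intro x y
    rw [hab x y]
    have h1 : ∀ t, ((a t : HX) : X → K) x =
        ∑ i, algebraMap R K (snf.bM.repr (a t) i) * e i x := by
      intro t
      have h3 : ((a t : HX) : X → K) =
          ((∑ i, snf.bM.repr (a t) i • snf.bM i : HX) : X → K) := by
        rw [snf.bM.sum_repr (a t)]
      rw [h3, ← Subalgebra.coe_val, map_sum, Finset.sum_apply]
      refine Finset.sum_congr rfl fun i _ => ?_
      rw [Subalgebra.coe_val, Subalgebra.coe_smul, Pi.smul_apply, Algebra.smul_def]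
    simp_rw [h1, Finset.sum_mul]
    rw [Finset.sum_comm]
    refine Finset.sum_congr rfl fun i _ => ?_
    rw [hB]
    have h4 : ((∑ t, snf.bM.repr (a t) i • b t : H') : Y → K) y =
        ∑ t, algebraMap R K (snf.bM.repr (a t) i) * ((b t : H') : Y → K) y := by
      rw [← Subalgebra.coe_val, map_sum, Finset.sum_apply]
      refine Finset.sum_congr rfl fun t _ => ?_
      rw [Subalgebra.coe_val, Subalgebra.coe_smul, Pi.smul_apply, Algebra.smul_def]
    rw [h4, Finset.mul_sum]
    refine Finset.sum_congr rfl fun t _ => ?_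
    ring
  -- the coefficients `B i y` vanish off the range of `f`
  have hB0 : ∀ i, i ∉ Set.range snf.f → ∀ y, ((B i : H') : Y → K) y = 0 := by
    intro i hi y
    refine hINV (fun i => ((B i : H') : Y → K) y) ?_ i hi
    intro x k hk
    have h1 : ∀ z, (∑ i, ((B i : H') : Y → K) y • e i) z = Φ (z, y) := by
      intro z
      rw [hFB z y, Finset.sum_apply]
      refine Finset.sum_congr rfl fun i _ => ?_
      rw [Pi.smul_apply, smul_eq_mul, mul_comm]
    rw [h1, h1, hinv x y k hk]
  refine ⟨Fin n, inferInstance, fun s => ⟨e (snf.f s), ⟨(snf.bM (snf.f s)).2, hs2 s⟩⟩,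
    fun s => B (snf.f s), ?_⟩
  intro x y
  rw [hFB x y]
  have h1 : ∑ i, e i x * ((B i : H') : Y → K) y =
      ∑ i ∈ Finset.univ.map snf.f, e i x * ((B i : H') : Y → K) y := by
    symm
    refine Finset.sum_subset (Finset.subset_univ _) fun i _ hi => ?_
    rw [hB0 i (fun ⟨s, hs⟩ => hi (Finset.mem_map.2 ⟨s, Finset.mem_univ _, hs⟩)) y, mul_zero]
  rw [h1, Finset.sum_map]

end Order

end Fermat.Agent.GZ.LocR.PushFibre
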