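/-
GATE-Z (S15) / (LOC-r), node PUSHFIBRE, part 4 (helper94): **(a) PUSH-OUT — torsor orders pass to
quotients.**

Frame of `GZ/LocR/TorsVocab` (`R` a PID, `F = Frac R ⊆ K` of characteristic `0`, `G` acting on `K`).
Given a pair `(HM, HX)` (stable function order on the finite group `M`, torsor order on the
`M`-torsor `X`), an equivariant surjection `π : M ↠ M''` and an equivariant map `p : X → X''` to an
`M''`-torsor with `p (m +ᵥ x) = π m +ᵥ p x`: the PREIMAGE orders `{g | g ∘ π ∈ HM}`,
`{g | g ∘ p ∈ HX}` are again a pair.  Group side = `GS/ClosureW.isStableOrder_comap`; separation by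
the trace over `ker π` + Dedekind; coaction / difference by saturation in both variables
(`ClosureW.rep2_inv`, `rep2_invX`).
-/
import Mathlib
import Fermat.Agent.GS.ClosureW.Quot
import Fermat.Agent.GZ.LocR.TorsVocab
import Fermat.Agent.GZ.LocR.PushFibre.FunOrder
import Fermat.Agent.GZ.LocR.PushFibre.Fibre
import Fermat.Agent.GZ.LocR.PushFibre.Sat

set_option autoImplicit false
set_option linter.unusedSectionVars false
set_option linter.unusedVariables false

namespace Fermat.Agent.GZ.LocR.PushFibre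

open Fermat.Agent.GH.N0 Fermat.Agent.GS.ClosureW

section Push

variable {R : Type*} [CommRing R] [IsDomain R] [IsPrincipalIdealRing R]
variable {F : Type*} [Field F] [Algebra R F] [IsFractionRing R F]
variable {K : Type*} [Field K] [Algebra F K] [Algebra R K] [IsScalarTower R F K]
variable {G : Type*} [Group G] [MulSemiringAction G K]
variable {M : Type*} [AddCommGroup M] [Finite M] {X : Type*} [AddTorsor M X]
variable {M'' : Type*} [AddCommGroup M''] [Finite M''] {X'' : Type*} [AddTorsor M'' X'']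
variable {actM : G → M → M} {actX : G → X → X}
variable {actM'' : G → M'' → M''} {actX'' : G → X'' → X''}
variable {HM : Subalgebra R (M → K)} {HX : Subalgebra R (X → K)}

/-- descent of an invariant function of `HM` to the quotient order. -/
theorem exists_desc_mem (π : M →+ M'') (hπ : Function.Surjective π)
    (u : (HM ⊓ invAlg R K π.ker : Subalgebra R (M → K))) :
    ∃ g' : M'' → K, g' ∈ HM.comap (precomp R K π) ∧ ∀ m, g' (π m) = (u : M → K) m := by
  obtain ⟨g', hg'⟩ := exists_desc hπ (u : M → K) (fun x k hk => u.2.2 x k hk)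
  refine ⟨g', ?_, hg'⟩
  show precomp R K π g' ∈ HM
  have : precomp R K π g' = (u : M → K) := funext hg'
  rw [this]
  exact u.2.1

/-- descent of an invariant function of `HX` to the quotient order. -/
theorem exists_descX_mem (π : M →+ M'') (p : X → X'') (hp : Function.Surjective p)
    (hvadd : ∀ (m : M) (x : X), p (m +ᵥ x) = π m +ᵥ p x)
    (u : (HX ⊓ invX R K X π.ker : Subalgebra R (X → K))) :
    ∃ g' : X'' → K, g' ∈ HX.comap (precomp R K p) ∧ ∀ x, g' (p x) = (u : X → K) x := by
  obtain ⟨g', hg'⟩ := exists_descX hp (u : X → K) (by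
    intro x y hxy
    have hk : x -ᵥ y ∈ π.ker := (eq_iff_vsub_mem_ker π p hvadd x y).mp hxy
    have := u.2.2 y _ hk
    rw [vsub_vadd] at this
    exact this)
  refine ⟨g', ?_, hg'⟩
  show precomp R K p g' ∈ HX
  have : precomp R K p g' = (u : X → K) := funext hg'
  rw [this]
  exact u.2.1

/-- **(a) PUSH-OUT.** the preimage orders of a torsor-order pair along an equivariant surjection of
(group, torsor) are a torsor-order pair. -/
theorem IsTorsorOrderPair.quot [CharZero K] (P : IsTorsorOrderPair F actM actX HM HX)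
    (π : M →+ M'') (hπ : Function.Surjective π) (p : X → X'')
    (hvadd : ∀ (m : M) (x : X), p (m +ᵥ x) = π m +ᵥ p x)
    (hπeq : ∀ (σ : G) (m : M), π (actM σ m) = actM'' σ (π m))
    (hpeq : ∀ (σ : G) (x : X), p (actX σ x) = actX'' σ (p x)) :
    IsTorsorOrderPair F actM'' actX'' (HM.comap (precomp R K π)) (HX.comap (precomp R K p)) := by
  have hp : Function.Surjective p := surjective_of_vadd π hπ p hvadd
  have hK := ker_stable P.group π hπeq
  have hpker : ∀ (x : X), ∀ k ∈ π.ker, p (k +ᵥ x) = p x := by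
    intro x k hk
    rw [AddMonoidHom.mem_ker] at hk
    rw [hvadd, hk, zero_vadd]
  refine ⟨isStableOrder_comap P.group π hπ hπeq, ⟨?_, ?_, ?_, ?_, ?_⟩, ?_⟩
  · -- equivariant
    intro g hg σ z
    obtain ⟨x, rfl⟩ := hp z
    have h1 : precomp R K p g ∈ HX := hg
    have := P.torsor.equivariant _ h1 σ x
    rw [← hpeq]
    exact this
  · -- fg
    have := P.torsor.fg
    exact finite_comap HX _ (precomp_injective R K hp)
  · -- sep
    intro z z' hne
    have : Fintype π.ker := Fintype.ofFinite _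
    obtain ⟨x, rfl⟩ := hp z
    obtain ⟨y, rfl⟩ := hp z'
    have hxy : x -ᵥ y ∉ π.ker := fun h => hne ((eq_iff_vsub_mem_ker π p hvadd x y).mpr h)
    obtain ⟨f, hf, hfne⟩ := exists_trX_ne P.torsor.sep π.ker hxy
    have hmem := trX_mem P π.ker hK hf
    obtain ⟨g, hg⟩ := exists_descX hp (trX K π.ker f) (by
      intro x y hxy
      have hk : x -ᵥ y ∈ π.ker := (eq_iff_vsub_mem_ker π p hvadd x y).mp hxy
      have := trX_vadd_mem π.ker f y hk
      rw [vsub_vadd] at this
      exact this)
    refine ⟨g, ?_, ?_⟩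
    · show precomp R K p g ∈ HX
      have : precomp R K p g = trX K π.ker f := funext hg
      rw [this]
      exact hmem
    · rw [hg, hg]
      exact hfne
  · -- coact
    intro g hg
    have hf : precomp R K p g ∈ HX := hg
    set f : X → K := precomp R K p g with hfdef
    -- `Φ (m, x) = f (m +ᵥ x) = g (π m +ᵥ p x)`
    set Φ : M × X → K := fun q => f (q.1 +ᵥ q.2) with hΦ
    have hΦ' : ∀ m x, Φ (m, x) = g (π m +ᵥ p x) := by
      intro m x
      show g (p (m +ᵥ x)) = _
      rw [hvadd]
    have h0 : Rep2 HM HX Φ := by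
      rw [rep2_iff_fin]
      obtain ⟨n, a, b, hab⟩ := P.torsor.coact f hf
      exact ⟨n, a, b, fun m x => hab m x⟩
    -- invariant in the group variable
    have h1 : Rep2 (HM ⊓ invAlg R K π.ker) HX Φ := by
      refine rep2_inv P.group π.ker hK HX h0 ?_
      intro m x k hk
      rw [hΦ', hΦ', map_add, (AddMonoidHom.mem_ker).mp hk, add_zero]
    -- swap, invariant in the torsor variable
    have h2 : Rep2 (HX ⊓ invX R K X π.ker) (HM ⊓ invAlg R K π.ker)
        (fun q : X × M => Φ (q.2, q.1)) := by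
      refine rep2_invX P π.ker hK _ h1.swap ?_
      intro x m k hk
      show Φ (m, k +ᵥ x) = Φ (m, x)
      rw [hΦ', hΦ', hpker x k hk]
    obtain ⟨ι, _, b, a, hab⟩ := h2
    choose d hd hd' using exists_desc_mem (HM := HM) π hπ
    choose dX hdX hdX' using exists_descX_mem (HX := HX) π p hp hvadd
    have hfin : Rep2 (HM.comap (precomp R K π)) (HX.comap (precomp R K p))
        (fun q : M'' × X'' => g (q.1 +ᵥ q.2)) := by
      refine ⟨ι, inferInstance, fun i => ⟨d (a i), hd (a i)⟩, fun i => ⟨dX (b i), hdX (b i)⟩, ?_⟩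
      intro m'' z
      obtain ⟨m, rfl⟩ := hπ m''
      obtain ⟨x, rfl⟩ := hp z
      show g (π m +ᵥ p x) = _
      rw [← hΦ']
      have := hab x m
      rw [show (fun q : X × M => Φ (q.2, q.1)) (x, m) = Φ (m, x) from rfl] at this
      rw [this]
      refine Finset.sum_congr rfl fun i _ => ?_
      show _ = d (a i) (π m) * dX (b i) (p x)
      rw [hd', hdX', mul_comm]
    rw [rep2_iff_fin] at hfin
    obtain ⟨n, a', b', hab'⟩ := hfin
    exact ⟨n, a', b', fun m z => hab' m z⟩
  · -- diff
    intro g hg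
    have hf : precomp R K π g ∈ HM := hg
    set f : M → K := precomp R K π g with hfdef
    -- `Ψ (x, x') = f (x -ᵥ x') = g (p x -ᵥ p x')`
    set Ψ : X × X → K := fun q => f (q.1 -ᵥ q.2) with hΨ
    have hΨ' : ∀ x x', Ψ (x, x') = g (p x -ᵥ p x') := by
      intro x x'
      show g (π (x -ᵥ x')) = _
      rw [map_vsub_of_vadd π p hvadd]
    have h0 : Rep2 HX HX Ψ := by
      rw [rep2_iff_fin]
      obtain ⟨n, a, b, hab⟩ := P.torsor.diff f hf
      exact ⟨n, a, b, fun x x' => hab x x'⟩
    have h1 : Rep2 (HX ⊓ invX R K X π.ker) HX Ψ := by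
      refine rep2_invX P π.ker hK HX h0 ?_
      intro x x' k hk
      rw [hΨ', hΨ', hpker x k hk]
    have h2 : Rep2 (HX ⊓ invX R K X π.ker) (HX ⊓ invX R K X π.ker)
        (fun q : X × X => Ψ (q.2, q.1)) := by
      refine rep2_invX P π.ker hK _ h1.swap ?_
      intro x x' k hk
      show Ψ (x', k +ᵥ x) = Ψ (x', x)
      rw [hΨ', hΨ', hpker x k hk]
    obtain ⟨ι, _, b, a, hab⟩ := h2
    choose dX hdX hdX' using exists_descX_mem (HX := HX) π p hp hvadd
    have hfin : Rep2 (HX.comap (precomp R K p)) (HX.comap (precomp R K p))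
        (fun q : X'' × X'' => g (q.1 -ᵥ q.2)) := by
      refine ⟨ι, inferInstance, fun i => ⟨dX (a i), hdX (a i)⟩, fun i => ⟨dX (b i), hdX (b i)⟩, ?_⟩
      intro z z'
      obtain ⟨x, rfl⟩ := hp z
      obtain ⟨x', rfl⟩ := hp z'
      show g (p x -ᵥ p x') = _
      rw [← hΨ']
      have := hab x' x
      rw [show (fun q : X × X => Ψ (q.2, q.1)) (x', x) = Ψ (x, x') from rfl] at this
      rw [this]
      refine Finset.sum_congr rfl fun i _ => ?_
      show _ = dX (a i) (p x) * dX (b i) (p x')
      rw [hdX', hdX', mul_comm]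
    rw [rep2_iff_fin] at hfin
    obtain ⟨n, a', b', hab'⟩ := hfin
    exact ⟨n, a', b', fun z z' => hab' z z'⟩
  · -- act_vadd
    intro σ m'' z
    obtain ⟨m, rfl⟩ := hπ m''
    obtain ⟨x, rfl⟩ := hp z
    rw [← hvadd, ← hpeq, P.act_vadd, hvadd, hπeq, hpeq]

/-- **(a) PUSH-OUT, ∃-form**: flatness of the class passes to the push-out. -/
theorem hasTorsorOrder_quot [CharZero K] (P : IsTorsorOrderPair F actM actX HM HX)
    (π : M →+ M'') (hπ : Function.Surjective π) (p : X → X'')
    (hvadd : ∀ (m : M) (x : X), p (m +ᵥ x) = π m +ᵥ p x)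
    (hπeq : ∀ (σ : G) (m : M), π (actM σ m) = actM'' σ (π m))
    (hpeq : ∀ (σ : G) (x : X), p (actX σ x) = actX'' σ (p x)) :
    HasTorsorOrder actX'' (HM.comap (precomp R K π)) :=
  (IsTorsorOrderPair.quot P π hπ p hvadd hπeq hpeq).torsor.hasTorsorOrder

end Push

end Fermat.Agent.GZ.LocR.PushFibre
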